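import Mathlib.RingTheory.PowerSeries.Derivative
import Mathlib.RingTheory.PowerSeries.Basic

/-!
# T16 package RAM, part 1: the Euler operator `θ = q d/dq` on formal power series

`theta A : Derivation A A⟦X⟧ A⟦X⟧` with `coeff n (theta A f) = n * coeff n f`.
Owner: helper29.
-/

set_option autoImplicit false

namespace Fermat.Agent.S16.RAM

open PowerSeries

section semiring

variable (A : Type*) [CommSemiring A]

/-- The Euler operator `θ = X · d/dX` on `A⟦X⟧`, as an `A`-derivation. -/
noncomputable def theta : Derivation A A⟦X⟧ A⟦X⟧ :=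
  (X : A⟦X⟧) • PowerSeries.derivative A

variable {A}

theorem theta_apply (f : A⟦X⟧) : theta A f = X * PowerSeries.derivative A f := rfl

@[simp]
theorem coeff_theta (f : A⟦X⟧) (n : ℕ) : coeff n (theta A f) = (n : A) * coeff n f := by
  rw [theta_apply]
  cases n with
  | zero => simp
  | succ n =>
    rw [coeff_succ_X_mul, coeff_derivative]
    push_cast
    ring

@[simp]
theorem constantCoeff_theta (f : A⟦X⟧) : constantCoeff (theta A f) = 0 := by
  rw [← coeff_zero_eq_constantCoeff_apply, coeff_theta]
  simp

theorem theta_mul (f g : A⟦X⟧) : theta A (f * g) = theta A f * g + f * theta A g := by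
  rw [Derivation.leibniz]
  simp only [smul_eq_mul]
  ring

theorem theta_add (f g : A⟦X⟧) : theta A (f + g) = theta A f + theta A g := map_add _ _ _

@[simp]
theorem theta_one : theta A (1 : A⟦X⟧) = 0 := by
  ext n; simp

@[simp]
theorem theta_C (a : A) : theta A (C a) = 0 := by
  ext n
  rw [coeff_theta, coeff_C]
  split_ifs with h <;> simp [h]

@[simp]
theorem theta_X : theta A (X : A⟦X⟧) = X := by
  rw [theta_apply, derivative_X, mul_one]

theorem theta_C_mul (a : A) (f : A⟦X⟧) : theta A (C a * f) = C a * theta A f := by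
  rw [theta_mul, theta_C, zero_mul, zero_add]

theorem theta_smul (a : A) (f : A⟦X⟧) : theta A (a • f) = a • theta A f :=
  Derivation.map_smul _ _ _

theorem theta_natCast_mul (m : ℕ) (f : A⟦X⟧) :
    theta A ((m : A⟦X⟧) * f) = (m : A⟦X⟧) * theta A f := by
  ext n
  simp only [coeff_theta, ← map_natCast (C (R := A)), coeff_C_mul]
  ring

theorem theta_pow (f : A⟦X⟧) (n : ℕ) :
    theta A (f ^ n) = (n : A⟦X⟧) * f ^ (n - 1) * theta A f := by
  rw [theta_apply, derivative_pow, theta_apply]
  ring

theorem theta_pow_succ (f : A⟦X⟧) (n : ℕ) :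
    theta A (f ^ (n + 1)) = ((n : A⟦X⟧) + 1) * f ^ n * theta A f := by
  rw [theta_pow]; simp

theorem theta_sq (f : A⟦X⟧) : theta A (f ^ 2) = 2 * f * theta A f := by
  rw [theta_pow]; simp

theorem theta_cube (f : A⟦X⟧) : theta A (f ^ 3) = 3 * f ^ 2 * theta A f := by
  rw [theta_pow]; simp

/-- `θ` of a series given by its coefficients. -/
theorem theta_mk (c : ℕ → A) :
    theta A (PowerSeries.mk c) = PowerSeries.mk fun n => (n : A) * c n := by
  ext n; simp

/-- `θ` commutes with base change of the coefficients. -/
theorem theta_map {B : Type*} [CommSemiring B] (φ : A →+* B) (f : A⟦X⟧) :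
    theta B (PowerSeries.map φ f) = PowerSeries.map φ (theta A f) := by
  ext n; simp

theorem theta_sum {ι : Type*} (s : Finset ι) (f : ι → A⟦X⟧) :
    theta A (∑ i ∈ s, f i) = ∑ i ∈ s, theta A (f i) := map_sum _ _ _

end semiring

section ring

variable {A : Type*} [CommRing A]

theorem theta_sub (f g : A⟦X⟧) : theta A (f - g) = theta A f - theta A g := map_sub _ _ _

theorem theta_neg (f : A⟦X⟧) : theta A (-f) = -theta A f := map_neg _ _

theorem theta_intCast_mul (m : ℤ) (f : A⟦X⟧) :
    theta A ((m : A⟦X⟧) * f) = (m : A⟦X⟧) * theta A f := by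
  ext n
  simp only [coeff_theta, ← map_intCast (C (R := A)), coeff_C_mul]
  ring

/-- A series with invertible multiples is determined by `θ` and its constant coefficient:
over a ring without additive torsion, `θ f = θ g` and equal constant terms give `f = g`. -/
theorem eq_of_theta_eq [IsAddTorsionFree A] {f g : A⟦X⟧} (h : theta A f = theta A g)
    (h0 : constantCoeff f = constantCoeff g) : f = g := by
  ext n
  rcases Nat.eq_zero_or_pos n with rfl | hn
  · simpa using h0
  · have := congrArg (coeff n) h
    rw [coeff_theta, coeff_theta, ← nsmul_eq_mul, ← nsmul_eq_mul] at this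
    exact nsmul_right_injective hn.ne' this

end ring

end Fermat.Agent.S16.RAM
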