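import Mathlib.NumberTheory.ModularForms.Derivative
import Mathlib.NumberTheory.ModularForms.LevelOne.DimensionFormula
import Fermat.Agent.LevelOne_helper29.Ramanujan

/-!
# T16 package RAM, part 0: Ramanujan's equation for `E₂`

`D E₂ = (E₂² - E₄) / 12` as an identity of functions on the upper half plane, via the
quasi-modularity of `E₂` and the one-dimensionality of level one weight four.
Owner: helper29.
-/

set_option autoImplicit false

open UpperHalfPlane hiding I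
open ModularForm Filter Topology Complex Real EisensteinSeries
open scoped MatrixGroups ModularForm Manifold
open Derivative

namespace Fermat.Agent.S16.RAM

open Fermat.Agent.LevelOne_helper29

lemma D2_eq (γ : SL(2, ℤ)) :
    D2 γ = fun z : ℍ => (2 * π * I * γ 1 0) * (denom γ z)⁻¹ := by
  funext z; simp [D2, div_eq_mul_inv]

lemma mdiff_D2 (γ : SL(2, ℤ)) : MDiff (D2 γ) := by
  rw [D2_eq]
  exact mdifferentiable_const.mul (mdifferentiable_inv_denom γ)

lemma D_D2 (γ : SL(2, ℤ)) (z : ℍ) :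
    D (D2 γ) z = -((γ 1 0 : ℂ) ^ 2) / (denom γ z) ^ 2 := by
  have hz := denom_ne_zero γ z
  have h1 : HasDerivAt (fun w : ℂ => (2 * π * I * γ 1 0) * denom γ w ^ (-1 : ℤ))
      ((2 * π * I * γ 1 0) * ((-1 : ℤ) * (γ 1 0 : ℂ) * denom γ z ^ ((-1 : ℤ) - 1))) (z : ℂ) := by
    have := (hasDerivAt_denom_zpow (γ : GL (Fin 2) ℝ) (-1) z).const_mul (2 * π * I * γ 1 0)
    simpa using this
  have h2 : (D2 γ ∘ ofComplex) =ᶠ[𝓝 (z : ℂ)]
      fun w : ℂ => (2 * π * I * γ 1 0) * denom γ w ^ (-1 : ℤ) := by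
    filter_upwards [isOpen_upperHalfPlaneSet.mem_nhds z.im_pos] with w hw
    simp [D2, ofComplex_apply_of_im_pos hw, div_eq_mul_inv]
  have h3 := (h1.congr_of_eventuallyEq h2).deriv
  simp only [normalizedDerivOfComplex]
  rw [h3]
  have h2pi : (2 * π * I : ℂ) ≠ 0 := two_pi_I_ne_zero
  have : denom γ z ^ ((-1 : ℤ) - 1) = (denom γ z ^ 2)⁻¹ := by
    rw [show ((-1 : ℤ) - 1) = -2 by norm_num, zpow_neg]
    norm_cast
  rw [this]
  field_simp
  ring

/-- The function `D E₂ - E₂² / 12`. -/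
noncomputable def ramF : ℍ → ℂ := fun z => D E2 z - 12⁻¹ * E2 z ^ 2

lemma ramF_slash (γ : SL(2, ℤ)) : ramF ∣[(4 : ℤ)] γ = ramF := by
  ext z
  have hz := denom_ne_zero γ z
  have hπ : (π : ℂ) ≠ 0 := by exact_mod_cast Real.pi_ne_zero
  -- the slash of `E₂`
  have hE2 : (E2 ∣[(2 : ℤ)] γ) z = E2 z - 1 / (2 * riemannZeta 2) * D2 γ z := by
    simp [E2_slash_action]
  -- `D` of the slash of `E₂`, in two ways
  have hD1 : D (E2 ∣[(2 : ℤ)] γ) z = (D E2 ∣[(4 : ℤ)] γ) z -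
      ((2 : ℂ) * (2 * π * I)⁻¹ * (γ 1 0 / denom γ z) * (E2 ∣[(2 : ℤ)] γ) z) := by
    have := congrFun (normalizedDerivOfComplex_SL_slash (k := 2) E2_mdifferentiable (γ := γ)) z
    simpa using this
  have hD2 : D (E2 ∣[(2 : ℤ)] γ) z = D E2 z - 1 / (2 * riemannZeta 2) * D (D2 γ) z := by
    have h1 : E2 ∣[(2 : ℤ)] γ = E2 - (1 / (2 * riemannZeta 2)) • D2 γ := E2_slash_action γ
    rw [h1, normalizedDerivOfComplex_sub _ _ E2_mdifferentiable ((mdiff_D2 γ).const_smul _),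
      normalizedDerivOfComplex_smul _ _ (mdiff_D2 γ)]
    simp
  -- the slash of `ramF`
  have hL : (ramF ∣[(4 : ℤ)] γ) z =
      (D E2 ∣[(4 : ℤ)] γ) z - 12⁻¹ * ((E2 ∣[(2 : ℤ)] γ) z) ^ 2 := by
    have h1 : ramF = D E2 + -((12⁻¹ : ℂ) • (E2 * E2)) := by
      funext w; simp [ramF, sq, sub_eq_add_neg]
    have h2 := congrFun (ModularForm.mul_slash_SL2 2 2 γ E2 E2) z
    rw [h1, SlashAction.add_slash, SlashAction.neg_slash, ModularForm.SL_smul_slash]
    simp only [Pi.add_apply, Pi.neg_apply, Pi.smul_apply, smul_eq_mul, ← sub_eq_add_neg]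
    rw [show ((2 : ℤ) + 2) = 4 by norm_num] at h2
    rw [h2, Pi.mul_apply, sq]
  rw [hL]
  have hDD := D_D2 γ z
  rw [hD2, hDD, hE2] at hD1
  rw [hE2]
  simp only [ramF, D2, riemannZeta_two] at hD1 ⊢
  have hI : (I : ℂ) ^ 2 = -1 := I_sq
  have h2pi : (2 * π * I : ℂ) ≠ 0 := two_pi_I_ne_zero
  have e1 : (D E2 ∣[(4 : ℤ)] γ) z = D E2 z - 1 / (2 * ((π : ℂ) ^ 2 / 6)) *
      (-((γ 1 0 : ℂ) ^ 2) / denom γ z ^ 2) +
      2 * (2 * π * I)⁻¹ * ((γ 1 0 : ℂ) / denom γ z) *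
        (E2 z - 1 / (2 * ((π : ℂ) ^ 2 / 6)) * (2 * π * I * (γ 1 0 : ℂ) / denom γ z)) := by
    linear_combination -hD1
  rw [e1]
  field_simp
  ring_nf
  rw [show (I : ℂ) ^ 3 = -I by rw [pow_succ, hI]; ring, hI]
  ring

/-- A function given by a convergent `q`-series is `1`-periodic. -/
theorem periodic_of_hasSum_qParam {f : ℍ → ℂ} {c : ℕ → ℂ}
    (hsum : ∀ τ : ℍ, HasSum (fun m => c m • Function.Periodic.qParam 1 (τ : ℂ) ^ m) (f τ)) :
    Function.Periodic (f ∘ ofComplex) (1 : ℝ) := by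
  intro w
  by_cases hw : 0 < w.im
  · have hw' : 0 < (w + (1 : ℝ)).im := by simpa using hw
    simp only [Function.comp_apply, ofComplex_apply_of_im_pos hw, ofComplex_apply_of_im_pos hw']
    refine (hsum ⟨w + (1 : ℝ), hw'⟩).unique ?_
    have hq : Function.Periodic.qParam 1 (w + (1 : ℝ)) = Function.Periodic.qParam 1 w :=
      Fermat.Agent.S22_helper29.qParam_add_period one_ne_zero w
    have := hsum ⟨w, hw⟩
    dsimp only at this ⊢
    rw [hq]
    exact this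
  · have hw0 : w.im ≤ 0 := not_lt.mp hw
    have hw' : (w + (1 : ℝ)).im ≤ 0 := by simpa using hw0
    simp only [Function.comp_apply]
    rw [ofComplex_apply_eq_of_im_nonpos hw' hw0]

/-- The `q`-series of `E₂`. -/
theorem hasSum_E2 (τ : ℍ) :
    HasSum (fun m : ℕ => (if m = 0 then 1 else -24 * ArithmeticFunction.sigma 1 m : ℂ) •
      Function.Periodic.qParam 1 (τ : ℂ) ^ m) (E2 τ) := by
  simpa only [Function.Periodic.qParam, ofReal_one, div_one] using hasSum_qExpansion_E2 (z := τ)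

theorem periodic_E2 : Function.Periodic (E2 ∘ ofComplex) (1 : ℝ) :=
  periodic_of_hasSum_qParam hasSum_E2

theorem tendsto_D_E2 : Tendsto (D E2) atImInfty (𝓝 0) :=
  Fermat.Agent.S22_helper29.isZeroAtImInfty_D one_pos E2_mdifferentiable periodic_E2
    isBoundedAtImInfty_E2

theorem tendsto_ramF : Tendsto ramF atImInfty (𝓝 (-(12⁻¹ : ℂ))) := by
  have h := tendsto_D_E2.sub ((tendsto_E2_atImInfty.pow 2).const_mul (12⁻¹ : ℂ))
  have h' : Tendsto (fun x => D E2 x - 12⁻¹ * E2 x ^ 2) atImInfty (𝓝 (-(12⁻¹ : ℂ))) := by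
    simpa using h
  exact h'

theorem mdiff_ramF : MDiff ramF := by
  have h1 : MDiff (D E2) := normalizedDerivOfComplex_mdifferentiable E2_mdifferentiable
  have h2 : MDiff (fun z : ℍ => (12⁻¹ : ℂ) * E2 z ^ 2) :=
    mdifferentiable_const.mul (E2_mdifferentiable.pow 2)
  exact h1.sub h2

/-- `D E₂ - E₂²/12` as a modular form of weight `4`. -/
noncomputable def ramForm : ModularForm 𝒮ℒ 4 :=
  levelOneForm 4 ramF mdiff_ramF ramF_slash (tendsto_ramF.isBigO_one ℝ)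

/-- **Ramanujan**: `D E₂ = (E₂² - E₄) / 12`. -/
theorem D_E2 (τ : ℍ) : D E2 τ = (E2 τ ^ 2 - E₄ τ) / 12 := by
  obtain ⟨c, hc⟩ : ∃ c : ℂ, c • E₄ = ramForm :=
    (finrank_eq_one_iff_of_nonzero' E₄ (E_ne_zero _ ⟨2, rfl⟩)).mp
      (Module.rank_eq_one_iff_finrank_eq_one.mp levelOne_weight_four_rank_one) _
  have hfun : ∀ τ : ℍ, ramF τ = c * E₄ τ := fun τ => by
    have := congrArg (fun F : ModularForm 𝒮ℒ 4 => F τ) hc
    have h2 : ramForm τ = ramF τ := rfl
    rw [h2] at this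
    simpa using this.symm
  have h1 : Tendsto ramF atImInfty (𝓝 (c * 1)) := by
    have : ramF = fun τ => c * E₄ τ := funext hfun
    rw [this]
    exact tendsto_E4_atImInfty.const_mul c
  have h3 := tendsto_nhds_unique h1 tendsto_ramF
  have h4 := hfun τ
  rw [mul_one] at h3
  rw [h3] at h4
  simp only [ramF] at h4
  linear_combination h4

end Fermat.Agent.S16.RAM
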