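import Mathlib.NumberTheory.ModularForms.QExpansion
import Mathlib.Analysis.Calculus.IteratedDeriv.Lemmas
import Fermat.Agent.S22_helper29.Antideriv
import Fermat.Agent.S16.RAM.Theta

/-!
# T16 package RAM, part 2: the `q`-expansion of `D f` is `θ` of the `q`-expansion of `f`

For `f : ℍ → ℂ` holomorphic, `h`-periodic and bounded at `i∞`:
`qExpansion h (D f) = h⁻¹ • θ (qExpansion h f)`; in particular for `h = 1`,
`qExpansion 1 (D f) = θ (qExpansion 1 f)`.
Owner: helper29.
-/

set_option autoImplicit false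

open UpperHalfPlane hiding I
open Complex Real Filter Function Metric
open scoped Manifold Topology
open Derivative

namespace Fermat.Agent.S16.RAM

open Fermat.Agent.S22_helper29

variable {f : ℍ → ℂ} {h : ℝ}

/-- The cusp function of `D f` on the unit disc. -/
theorem cuspFunction_D (hh : 0 < h) (hf : MDiff f)
    (hper : Function.Periodic (f ∘ ofComplex) h) (hbdd : IsBoundedAtImInfty f)
    {q : ℂ} (hq : ‖q‖ < 1) :
    cuspFunction h (D f) q = q * deriv (cuspFunction h f) q / h := by
  rcases eq_or_ne q 0 with rfl | hq0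
  · rw [(isZeroAtImInfty_D hh hf hper hbdd).cuspFunction_apply_zero hh]
    simp
  · set Ψ : ℂ → ℂ := cuspFunction h f with hΨdef
    have hΨdiff : DifferentiableOn ℂ Ψ (ball 0 1) :=
      differentiableOn_cuspFunction_ball hh hper hf hbdd
    have hΨ : ∀ q ∈ ball (0 : ℂ) 1, HasDerivAt Ψ (deriv Ψ q) q := fun q hq =>
      (hΨdiff.differentiableAt (isOpen_ball.mem_nhds hq)).hasDerivAt
    have hGeq : f = fun τ : ℍ => Ψ (Periodic.qParam h τ) := eq_cuspFunction_comp_qParam hh hper
    have him := Periodic.im_invQParam_pos_of_norm_lt_one hh hq hq0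
    set τ : ℍ := ⟨Periodic.invQParam h q, him⟩ with hτ
    have hqτ : Periodic.qParam h τ = q := Periodic.qParam_right_inv hh.ne' hq0
    have h1 : cuspFunction h (D f) (Periodic.qParam h τ) = D f τ :=
      eq_cuspFunction τ hh.ne' (periodic_D hper)
    have h2 : D f τ = deriv Ψ (Periodic.qParam h τ) * Periodic.qParam h τ / h := by
      conv_lhs => rw [hGeq]
      exact D_comp_qParam hh hΨ τ
    rw [hqτ] at h1 h2
    rw [h1, h2]
    ring

/-- `iteratedDeriv` of `q ↦ q * g q` at zero. -/
theorem iteratedDeriv_id_mul_zero {g : ℂ → ℂ} (hg : AnalyticAt ℂ g 0) (m : ℕ) :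
    iteratedDeriv m (fun q => q * g q) 0 = m * iteratedDeriv (m - 1) g 0 := by
  have h1 : (fun q : ℂ => q * g q) = id * g := rfl
  rw [h1, iteratedDeriv_mul contDiffAt_id hg.contDiffAt]
  rcases Nat.eq_zero_or_pos m with rfl | hm
  · simp
  · rw [Finset.sum_eq_single 1]
    · simp [iteratedDeriv_id]
    · intro i _ hi
      simp [iteratedDeriv_id, hi]
    · intro h
      exact absurd (Finset.mem_range.mpr (by omega)) h

/-- The `q`-expansion of `D f`, coefficientwise. -/
theorem qExpansion_D_coeff (hh : 0 < h) (hf : MDiff f)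
    (hper : Function.Periodic (f ∘ ofComplex) h) (hbdd : IsBoundedAtImInfty f) (m : ℕ) :
    (qExpansion h (D f)).coeff m = (m : ℂ) / h * (qExpansion h f).coeff m := by
  have hΨ : AnalyticAt ℂ (cuspFunction h f) 0 := analyticAt_cuspFunction_zero hh hper hf hbdd
  have hev : cuspFunction h (D f) =ᶠ[𝓝 0]
      fun q => (h : ℂ)⁻¹ * (fun q => q * deriv (cuspFunction h f) q) q := by
    filter_upwards [ball_mem_nhds (0 : ℂ) one_pos] with q hq
    rw [cuspFunction_D hh hf hper hbdd (by simpa using hq)]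
    ring
  rw [qExpansion_coeff, qExpansion_coeff, hev.iteratedDeriv_eq m,
    iteratedDeriv_const_mul_field, iteratedDeriv_id_mul_zero hΨ.deriv]
  rcases Nat.eq_zero_or_pos m with rfl | hm
  · simp
  · obtain ⟨k, rfl⟩ : ∃ k, m = k + 1 := ⟨m - 1, by omega⟩
    rw [Nat.add_sub_cancel, ← iteratedDeriv_succ']
    ring

/-- The `q`-expansion of `D f` for `h`-periodic `f`. -/
theorem qExpansion_D (hh : 0 < h) (hf : MDiff f)
    (hper : Function.Periodic (f ∘ ofComplex) h) (hbdd : IsBoundedAtImInfty f) :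
    qExpansion h (D f) = (h : ℂ)⁻¹ • theta ℂ (qExpansion h f) := by
  ext m
  rw [qExpansion_D_coeff hh hf hper hbdd, PowerSeries.coeff_smul, coeff_theta]
  simp only [smul_eq_mul]
  ring

/-- **`q`-expansion of `D f`** for `1`-periodic `f`: `qExpansion 1 (D f) = θ (qExpansion 1 f)`. -/
theorem qExpansion_one_D (hf : MDiff f)
    (hper : Function.Periodic (f ∘ ofComplex) (1 : ℝ)) (hbdd : IsBoundedAtImInfty f) :
    qExpansion 1 (D f) = theta ℂ (qExpansion 1 f) := by
  rw [qExpansion_D one_pos hf hper hbdd]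
  simp

/-- `D f` is again in the class (holomorphic, periodic, bounded at `i∞`). -/
theorem class_D (hh : 0 < h) (hf : MDiff f)
    (hper : Function.Periodic (f ∘ ofComplex) h) (hbdd : IsBoundedAtImInfty f) :
    MDiff (D f) ∧ Function.Periodic ((D f) ∘ ofComplex) h ∧ IsBoundedAtImInfty (D f) :=
  ⟨normalizedDerivOfComplex_mdifferentiable hf, periodic_D hper,
    (isZeroAtImInfty_D hh hf hper hbdd).isBoundedAtImInfty⟩

end Fermat.Agent.S16.RAM
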