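import Fermat.Agent.S16.LevelOneInt
import Fermat.Agent.S16.RAM.DE2
import Fermat.Agent.S16.RAM.QExpD

/-!
# T16 package RAM, parts 3 and 4: Ramanujan's differential equations in `ℤ⟦q⟧`

With `e2Z = 1 - 24 ∑ σ₁(n) qⁿ` and helper67's `e4Z`, `e6Z`, `deltaZ` (the integral `q`-expansions
of `E₂`, `E₄`, `E₆`, `Δ`) and `θ = q d/dq`:

* `theta_e2Z : 12 * θ e2Z = e2Z ^ 2 - e4Z`
* `theta_e4Z : 3 * θ e4Z = e2Z * e4Z - e6Z`
* `theta_e6Z : 2 * θ e6Z = e2Z * e6Z - e4Z ^ 2`
* `theta_deltaZ : θ deltaZ = e2Z * deltaZ`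

and the same over every commutative ring `A` for the base-changed series `e2 A`, `e4 A`, `e6 A`,
`delta A` (`theta_e2`, `theta_e4`, `theta_e6`, `theta_delta`).
Owner: helper29.
-/

set_option autoImplicit false

open UpperHalfPlane hiding I
open ModularForm Filter Topology Complex Real EisensteinSeries PowerSeries
open scoped MatrixGroups ModularForm Manifold ArithmeticFunction.sigma
open Derivative

namespace Fermat.Agent.S16.RAM

open Fermat.Agent.LevelOne_helper29 Fermat.Agent.S16.L1h67

/-- the integral `q`-expansion of `E₂` -/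
noncomputable def e2Z : PowerSeries ℤ := 1 - 24 * sigmaSeries 1

theorem coeff_e2Z (n : ℕ) : coeff n e2Z = if n = 0 then 1 else -24 * (σ 1 n : ℤ) := by
  have h : (24 : PowerSeries ℤ) = C (24 : ℤ) := by simp
  rw [e2Z, map_sub, h, coeff_C_mul, coeff_sigmaSeries, coeff_one]
  split_ifs <;> simp

theorem constantCoeff_e2Z : constantCoeff e2Z = 1 := by
  rw [← coeff_zero_eq_constantCoeff_apply, coeff_e2Z]; simp

theorem analyticAt_cuspFunction_E2 : AnalyticAt ℂ (cuspFunction 1 E2) 0 :=
  analyticAt_cuspFunction_zero one_pos periodic_E2 E2_mdifferentiable isBoundedAtImInfty_E2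

/-- Uniqueness of `q`-expansion coefficients, for plain functions on `ℍ`. -/
theorem qExpansion_coeff_unique_fun {f : ℍ → ℂ} {h : ℝ} {c : ℕ → ℂ} (hh : 0 < h)
    (hfanalytic : AnalyticAt ℂ (cuspFunction h f) 0)
    (hf : ∀ τ : ℍ, HasSum (fun m => c m • Function.Periodic.qParam h (τ : ℂ) ^ m) (f τ)) (m : ℕ) :
    c m = (qExpansion h f).coeff m := by
  have h1 := (hasFPowerSeriesOnBall_cuspFunction hh hfanalytic hf).hasFPowerSeriesAt
  have h2 : HasFPowerSeriesAt (cuspFunction h f)
      (FormalMultilinearSeries.ofScalars ℂ fun m => (qExpansion h f).coeff m) 0 := by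
    simpa [qExpansion_coeff, div_eq_mul_inv, mul_comm] using hfanalytic.hasFPowerSeriesAt
  simpa [FormalMultilinearSeries.coeff_ofScalars] using
    congr_arg (FormalMultilinearSeries.coeff · m) (h1.eq_formalMultilinearSeries h2)

theorem qExpansion_E2 : qExpansion 1 E2 = e2Z.map (Int.castRingHom ℂ) := by
  ext n
  rw [← qExpansion_coeff_unique_fun one_pos analyticAt_cuspFunction_E2 hasSum_E2 n, coeff_map,
    coeff_e2Z]
  split_ifs with h <;> simp

/-! ### analyticity of the cusp functions -/

theorem analyticAt_cuspFunction_E4 : AnalyticAt ℂ (cuspFunction 1 E₄) 0 :=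
  ModularFormClass.analyticAt_cuspFunction_zero E₄ one_pos one_mem_strictPeriods_SL

theorem analyticAt_cuspFunction_E6 : AnalyticAt ℂ (cuspFunction 1 E₆) 0 :=
  ModularFormClass.analyticAt_cuspFunction_zero E₆ one_pos one_mem_strictPeriods_SL

theorem analyticAt_cuspFunction_discriminant :
    AnalyticAt ℂ (cuspFunction 1 ModularForm.discriminant) 0 := by
  have := ModularFormClass.analyticAt_cuspFunction_zero CuspForm.discriminant one_pos
    one_mem_strictPeriods_SL
  simpa using this

theorem analyticAt_cuspFunction_mul {f g : ℍ → ℂ} {h : ℝ}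
    (hf : AnalyticAt ℂ (cuspFunction h f) 0) (hg : AnalyticAt ℂ (cuspFunction h g) 0) :
    AnalyticAt ℂ (cuspFunction h (f * g)) 0 := by
  rw [cuspFunction_mul hf.continuousAt hg.continuousAt]
  exact hf.mul hg

theorem analyticAt_cuspFunction_D {f : ℍ → ℂ} {h : ℝ} (hh : 0 < h) (hf : MDiff f)
    (hper : Function.Periodic (f ∘ ofComplex) h) (hbdd : IsBoundedAtImInfty f) :
    AnalyticAt ℂ (cuspFunction h (D f)) 0 :=
  let ⟨h1, h2, h3⟩ := class_D hh hf hper hbdd
  analyticAt_cuspFunction_zero hh h2 h1 h3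

/-! ### Ramanujan's identities for the complex `q`-expansions -/

theorem qExpansion_D_E2 : qExpansion 1 (D E2) = theta ℂ (qExpansion 1 E2) :=
  qExpansion_one_D E2_mdifferentiable periodic_E2 isBoundedAtImInfty_E2

theorem qExpansion_D_of_modularForm {k : ℤ} {F : Type*} [FunLike F ℍ ℂ]
    [ModularFormClass F 𝒮ℒ k] (f : F) :
    qExpansion 1 (D f) = theta ℂ (qExpansion 1 f) :=
  qExpansion_one_D (ModularFormClass.holo f)
    (SlashInvariantFormClass.periodic_comp_ofComplex f one_mem_strictPeriods_SL)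
    (ModularFormClass.bdd_at_infty f)

theorem ramanujan_E2_complex :
    (12 : ℂ) • theta ℂ (qExpansion 1 E2) = qExpansion 1 E2 ^ 2 - qExpansion 1 E₄ := by
  have hfun : (12 : ℂ) • D E2 = E2 * E2 - ⇑E₄ := by
    funext τ
    simp only [Pi.smul_apply, Pi.sub_apply, Pi.mul_apply, smul_eq_mul]
    rw [D_E2]; ring
  have hD : AnalyticAt ℂ (cuspFunction 1 (D E2)) 0 :=
    analyticAt_cuspFunction_D one_pos E2_mdifferentiable periodic_E2 isBoundedAtImInfty_E2
  have h := congrArg (qExpansion 1) hfun
  rw [qExpansion_smul hD, qExpansion_D_E2,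
    qExpansion_sub (analyticAt_cuspFunction_mul analyticAt_cuspFunction_E2
      analyticAt_cuspFunction_E2) analyticAt_cuspFunction_E4,
    qExpansion_mul analyticAt_cuspFunction_E2 analyticAt_cuspFunction_E2] at h
  rw [h]; ring

theorem ramanujan_E4_complex :
    (3 : ℂ) • theta ℂ (qExpansion 1 E₄) =
      qExpansion 1 E2 * qExpansion 1 E₄ - qExpansion 1 E₆ := by
  have hfun : (3 : ℂ) • D E₄ = E2 * ⇑E₄ - ⇑E₆ := by
    funext τ
    simp only [Pi.smul_apply, Pi.sub_apply, Pi.mul_apply, smul_eq_mul]
    rw [D_E4]; ring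
  have hD : AnalyticAt ℂ (cuspFunction 1 (D E₄)) 0 :=
    analyticAt_cuspFunction_D one_pos (ModularFormClass.holo E₄)
      (SlashInvariantFormClass.periodic_comp_ofComplex E₄ one_mem_strictPeriods_SL)
      (ModularFormClass.bdd_at_infty E₄)
  have h := congrArg (qExpansion 1) hfun
  rw [qExpansion_smul hD, qExpansion_D_of_modularForm,
    qExpansion_sub (analyticAt_cuspFunction_mul analyticAt_cuspFunction_E2
      analyticAt_cuspFunction_E4) analyticAt_cuspFunction_E6,
    qExpansion_mul analyticAt_cuspFunction_E2 analyticAt_cuspFunction_E4] at h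
  exact h

theorem ramanujan_E6_complex :
    (2 : ℂ) • theta ℂ (qExpansion 1 E₆) =
      qExpansion 1 E2 * qExpansion 1 E₆ - qExpansion 1 E₄ ^ 2 := by
  have hfun : (2 : ℂ) • D E₆ = E2 * ⇑E₆ - ⇑E₄ * ⇑E₄ := by
    funext τ
    simp only [Pi.smul_apply, Pi.sub_apply, Pi.mul_apply, smul_eq_mul]
    rw [D_E6]; ring
  have hD : AnalyticAt ℂ (cuspFunction 1 (D E₆)) 0 :=
    analyticAt_cuspFunction_D one_pos (ModularFormClass.holo E₆)
      (SlashInvariantFormClass.periodic_comp_ofComplex E₆ one_mem_strictPeriods_SL)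
      (ModularFormClass.bdd_at_infty E₆)
  have h := congrArg (qExpansion 1) hfun
  rw [qExpansion_smul hD, qExpansion_D_of_modularForm,
    qExpansion_sub (analyticAt_cuspFunction_mul analyticAt_cuspFunction_E2
      analyticAt_cuspFunction_E6) (analyticAt_cuspFunction_mul analyticAt_cuspFunction_E4
      analyticAt_cuspFunction_E4),
    qExpansion_mul analyticAt_cuspFunction_E2 analyticAt_cuspFunction_E6,
    qExpansion_mul analyticAt_cuspFunction_E4 analyticAt_cuspFunction_E4] at h
  rw [h]; ring

theorem ramanujan_discriminant_complex :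
    theta ℂ (qExpansion 1 ModularForm.discriminant) =
      qExpansion 1 E2 * qExpansion 1 ModularForm.discriminant := by
  have hfun : D ModularForm.discriminant = E2 * ModularForm.discriminant := by
    funext τ
    simp only [Pi.mul_apply]
    rw [D_discriminant]
  have h := congrArg (qExpansion 1) hfun
  have h1 : qExpansion 1 (D ModularForm.discriminant) =
      theta ℂ (qExpansion 1 ModularForm.discriminant) := by
    have := qExpansion_D_of_modularForm (CuspForm.discriminant : CuspForm 𝒮ℒ 12)
    simpa using this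
  rw [h1, qExpansion_mul analyticAt_cuspFunction_E2 analyticAt_cuspFunction_discriminant] at h
  exact h

/-! ### Ramanujan's identities in `ℤ⟦q⟧` -/

theorem map_int_injective :
    Function.Injective (PowerSeries.map (Int.castRingHom ℂ)) :=
  PowerSeries.map_injective _ (RingHom.injective_int (Int.castRingHom ℂ))

theorem smul_eq_map_intCast_mul (m : ℤ) (f : PowerSeries ℂ) :
    ((m : ℂ)) • f = PowerSeries.map (Int.castRingHom ℂ) (m : PowerSeries ℤ) * f := by
  rw [map_intCast, smul_eq_C_mul]
  congr 1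
  simp

/-- **Ramanujan**: `12 θP = P² - Q` in `ℤ⟦q⟧`. -/
theorem theta_e2Z : 12 * theta ℤ e2Z = e2Z ^ 2 - e4Z := by
  apply map_int_injective
  have h := ramanujan_E2_complex
  rw [qExpansion_E2, qExpansion_E4, theta_map] at h
  have h12 := smul_eq_map_intCast_mul 12 (PowerSeries.map (Int.castRingHom ℂ) (theta ℤ e2Z))
  simp only [Int.cast_ofNat] at h12
  rw [h12] at h
  simpa only [map_mul, map_sub, map_pow] using h

/-- **Ramanujan**: `3 θQ = PQ - R` in `ℤ⟦q⟧`. -/
theorem theta_e4Z : 3 * theta ℤ e4Z = e2Z * e4Z - e6Z := by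
  apply map_int_injective
  have h := ramanujan_E4_complex
  rw [qExpansion_E2, qExpansion_E4, qExpansion_E6, theta_map] at h
  have h3 := smul_eq_map_intCast_mul 3 (PowerSeries.map (Int.castRingHom ℂ) (theta ℤ e4Z))
  simp only [Int.cast_ofNat] at h3
  rw [h3] at h
  simpa only [map_mul, map_sub, map_pow] using h

/-- **Ramanujan**: `2 θR = PR - Q²` in `ℤ⟦q⟧`. -/
theorem theta_e6Z : 2 * theta ℤ e6Z = e2Z * e6Z - e4Z ^ 2 := by
  apply map_int_injective
  have h := ramanujan_E6_complex
  rw [qExpansion_E2, qExpansion_E4, qExpansion_E6, theta_map] at h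
  have h2 := smul_eq_map_intCast_mul 2 (PowerSeries.map (Int.castRingHom ℂ) (theta ℤ e6Z))
  simp only [Int.cast_ofNat] at h2
  rw [h2] at h
  simpa only [map_mul, map_sub, map_pow] using h

/-- **Ramanujan**: `θΔ = PΔ` in `ℤ⟦q⟧`. -/
theorem theta_deltaZ : theta ℤ deltaZ = e2Z * deltaZ := by
  apply map_int_injective
  have h := ramanujan_discriminant_complex
  rw [qExpansion_E2, qExpansion_discriminant, theta_map] at h
  simpa only [map_mul] using h

theorem coeff_one_deltaZ : coeff 1 deltaZ = 1 := by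
  have h := discriminant_qExpansion_coeff_one
  rw [qExpansion_discriminant, coeff_map, eq_intCast] at h
  exact_mod_cast h

/-! ### Base change to an arbitrary commutative ring -/

section baseChange

variable (A : Type*) [CommRing A]

/-- `P = 1 - 24 ∑ σ₁(n) qⁿ` over `A`. -/
noncomputable def e2 : PowerSeries A := e2Z.map (Int.castRingHom A)

/-- `Q = 1 + 240 ∑ σ₃(n) qⁿ` over `A`. -/
noncomputable def e4 : PowerSeries A := e4Z.map (Int.castRingHom A)

/-- `R = 1 - 504 ∑ σ₅(n) qⁿ` over `A`. -/
noncomputable def e6 : PowerSeries A := e6Z.map (Int.castRingHom A)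

/-- `Δ = q - 24 q² + ...` over `A`. -/
noncomputable def delta : PowerSeries A := deltaZ.map (Int.castRingHom A)

theorem coeff_e2 (n : ℕ) : coeff n (e2 A) = if n = 0 then 1 else -24 * (σ 1 n : A) := by
  rw [e2, coeff_map, coeff_e2Z]
  split_ifs <;> simp

theorem coeff_e4 (n : ℕ) : coeff n (e4 A) = if n = 0 then 1 else 240 * (σ 3 n : A) := by
  rw [e4, coeff_map, coeff_e4Z]
  split_ifs <;> simp

theorem coeff_e6 (n : ℕ) : coeff n (e6 A) = if n = 0 then 1 else -504 * (σ 5 n : A) := by
  rw [e6, coeff_map, coeff_e6Z]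
  split_ifs <;> simp

theorem e4_cube_sub_e6_sq : e4 A ^ 3 - e6 A ^ 2 = 1728 * delta A := by
  have := congrArg (PowerSeries.map (Int.castRingHom A)) e4Z_cube_sub_e6Z_sq
  simpa only [e4, e6, delta, map_mul, map_sub, map_pow, map_ofNat] using this

/-- **Ramanujan** over `A`: `12 θP = P² - Q`. -/
theorem theta_e2 : 12 * theta A (e2 A) = e2 A ^ 2 - e4 A := by
  have := congrArg (PowerSeries.map (Int.castRingHom A)) theta_e2Z
  simpa only [e2, e4, e6, map_mul, map_sub, map_pow, map_ofNat, ← theta_map] using this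

/-- **Ramanujan** over `A`: `3 θQ = PQ - R`. -/
theorem theta_e4 : 3 * theta A (e4 A) = e2 A * e4 A - e6 A := by
  have := congrArg (PowerSeries.map (Int.castRingHom A)) theta_e4Z
  simpa only [e2, e4, e6, map_mul, map_sub, map_pow, map_ofNat, ← theta_map] using this

/-- **Ramanujan** over `A`: `2 θR = PR - Q²`. -/
theorem theta_e6 : 2 * theta A (e6 A) = e2 A * e6 A - e4 A ^ 2 := by
  have := congrArg (PowerSeries.map (Int.castRingHom A)) theta_e6Z
  simpa only [e2, e4, e6, map_mul, map_sub, map_pow, map_ofNat, ← theta_map] using this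

/-- **Ramanujan** over `A`: `θΔ = PΔ`. -/
theorem theta_delta : theta A (delta A) = e2 A * delta A := by
  have := congrArg (PowerSeries.map (Int.castRingHom A)) theta_deltaZ
  simpa only [e2, delta, map_mul, ← theta_map] using this

variable {A} in
/-- Base change of an integral series is compatible with ring homomorphisms. -/
theorem map_map_intCast {B : Type*} [CommRing B] (φ : A →+* B) (p : PowerSeries ℤ) :
    (p.map (Int.castRingHom A)).map φ = p.map (Int.castRingHom B) := by
  ext n
  simp only [coeff_map]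
  exact RingHom.congr_fun (RingHom.ext_int (φ.comp (Int.castRingHom A)) (Int.castRingHom B)) _

variable {A} in
theorem map_e2 {B : Type*} [CommRing B] (φ : A →+* B) : (e2 A).map φ = e2 B :=
  map_map_intCast φ _

variable {A} in
theorem map_e4 {B : Type*} [CommRing B] (φ : A →+* B) : (e4 A).map φ = e4 B :=
  map_map_intCast φ _

variable {A} in
theorem map_e6 {B : Type*} [CommRing B] (φ : A →+* B) : (e6 A).map φ = e6 B :=
  map_map_intCast φ _

variable {A} in
theorem map_delta {B : Type*} [CommRing B] (φ : A →+* B) : (delta A).map φ = delta B :=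
  map_map_intCast φ _

theorem coeff_one_delta : coeff 1 (delta A) = 1 := by
  rw [delta, coeff_map, coeff_one_deltaZ]; simp

theorem e2_int : e2 ℤ = e2Z := by
  ext n; simp [e2]

theorem e4_int : e4 ℤ = e4Z := by
  ext n; simp [e4]

theorem e6_int : e6 ℤ = e6Z := by
  ext n; simp [e6]

theorem delta_int : delta ℤ = deltaZ := by
  ext n; simp [delta]

theorem e2_complex : e2 ℂ = qExpansion 1 E2 := qExpansion_E2.symm

theorem e4_complex : e4 ℂ = qExpansion 1 E₄ := qExpansion_E4.symm

theorem e6_complex : e6 ℂ = qExpansion 1 E₆ := qExpansion_E6.symm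

theorem delta_complex : delta ℂ = qExpansion 1 ModularForm.discriminant :=
  qExpansion_discriminant.symm

theorem constantCoeff_e2 : constantCoeff (e2 A) = 1 := by
  rw [← coeff_zero_eq_constantCoeff_apply, coeff_e2]; simp

theorem constantCoeff_e4 : constantCoeff (e4 A) = 1 := by
  rw [← coeff_zero_eq_constantCoeff_apply, coeff_e4]; simp

theorem constantCoeff_e6 : constantCoeff (e6 A) = 1 := by
  rw [← coeff_zero_eq_constantCoeff_apply, coeff_e6]; simp

theorem constantCoeff_delta : constantCoeff (delta A) = 0 := by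
  rw [delta, ← coeff_zero_eq_constantCoeff_apply, coeff_map, coeff_zero_eq_constantCoeff_apply,
    constantCoeff_deltaZ]
  simp

end baseChange

end Fermat.Agent.S16.RAM
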