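import Fermat.Agent.S16.LevelOneIntegral
import Fermat.Agent.S16.RAM.Series

/-!
# T16 package RAM: bridge to the canonical `L1` series and consumer-shaped statements

* `E4Z_eq_e4Z`, `E6Z_eq_e6Z`, `DeltaZ_eq_deltaZ`: the integral series of
  `LevelOneIntegral.lean` (namespace `L1`) and of `LevelOneSeries.lean` (namespace `L1h67`) agree.
* `ramanujan_P`, `ramanujan_Q`, `ramanujan_R`, `ramanujan_Delta`: Ramanujan's identities over an
  arbitrary commutative ring `A`, written with `X * d⁄dX A _` and the `L1` series.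
Owner: helper29.
-/

set_option autoImplicit false

open PowerSeries

namespace Fermat.Agent.S16.RAM

open Fermat.Agent.S16

theorem E4Z_eq_e4Z : L1.E4Z = L1h67.e4Z := by
  ext n; rw [L1.coeff_E4Z, L1h67.coeff_e4Z]

theorem E6Z_eq_e6Z : L1.E6Z = L1h67.e6Z := by
  ext n; rw [L1.coeff_E6Z, L1h67.coeff_e6Z]

theorem DeltaZ_eq_deltaZ : L1.DeltaZ = L1h67.deltaZ := by
  have h1 := L1.DeltaZ_identity
  have h2 := L1h67.e4Z_cube_sub_e6Z_sq
  rw [E4Z_eq_e4Z, E6Z_eq_e6Z, h2] at h1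
  have c1728 : PowerSeries.C (1728 : ℤ) = (1728 : PowerSeries ℤ) := by simp
  rw [c1728] at h1
  have h0 : (1728 : PowerSeries ℤ) ≠ 0 := by
    rw [← c1728, Ne, map_eq_zero_iff _ PowerSeries.C_injective]; norm_num
  exact mul_left_cancel₀ h0 h1

section ring

variable (A : Type*) [CommRing A]

theorem e4_eq_map_E4Z : e4 A = L1.E4Z.map (Int.castRingHom A) := by
  rw [e4, E4Z_eq_e4Z]

theorem e6_eq_map_E6Z : e6 A = L1.E6Z.map (Int.castRingHom A) := by
  rw [e6, E6Z_eq_e6Z]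

theorem delta_eq_map_DeltaZ : delta A = L1.DeltaZ.map (Int.castRingHom A) := by
  rw [delta, DeltaZ_eq_deltaZ]

/-- `12 q P' = P² - Q` over `A`, with `P = e2 A` and `Q` the base change of `L1.E4Z`. -/
theorem ramanujan_P :
    12 * (X * d⁄dX A (e2 A)) = e2 A ^ 2 - L1.E4Z.map (Int.castRingHom A) := by
  rw [← e4_eq_map_E4Z]; exact theta_e2 A

/-- `3 q Q' = P Q - R` over `A`. -/
theorem ramanujan_Q :
    3 * (X * d⁄dX A (L1.E4Z.map (Int.castRingHom A))) =
      e2 A * L1.E4Z.map (Int.castRingHom A) - L1.E6Z.map (Int.castRingHom A) := by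
  rw [← e4_eq_map_E4Z, ← e6_eq_map_E6Z]; exact theta_e4 A

/-- `2 q R' = P R - Q²` over `A`. -/
theorem ramanujan_R :
    2 * (X * d⁄dX A (L1.E6Z.map (Int.castRingHom A))) =
      e2 A * L1.E6Z.map (Int.castRingHom A) - L1.E4Z.map (Int.castRingHom A) ^ 2 := by
  rw [← e4_eq_map_E4Z, ← e6_eq_map_E6Z]; exact theta_e6 A

/-- `q Δ' = P Δ` over `A`. -/
theorem ramanujan_Delta :
    X * d⁄dX A (L1.DeltaZ.map (Int.castRingHom A)) =
      e2 A * L1.DeltaZ.map (Int.castRingHom A) := by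
  rw [← delta_eq_map_DeltaZ]; exact theta_delta A

/-- The coefficient of `q` in `Q³ - R²` is `1728`. -/
theorem coeff_one_e4_cube_sub_e6_sq : coeff 1 (e4 A ^ 3 - e6 A ^ 2) = 1728 := by
  rw [e4_cube_sub_e6_sq]
  have c1728 : (1728 : PowerSeries A) = PowerSeries.C (1728 : A) :=
    (map_ofNat (PowerSeries.C (R := A)) 1728).symm
  rw [c1728, coeff_C_mul, coeff_one_delta, mul_one]

/-- `Q³ - R² ≠ 0` as soon as `1728 ≠ 0` in `A`. -/
theorem e4_cube_sub_e6_sq_ne_zero (h : (1728 : A) ≠ 0) : e4 A ^ 3 - e6 A ^ 2 ≠ 0 := by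
  intro h0
  apply h
  rw [← coeff_one_e4_cube_sub_e6_sq A, h0, map_zero]

/-- `Q³ - R² ≠ 0` over a domain of characteristic `l ≥ 5`. -/
theorem e4_cube_sub_e6_sq_ne_zero_of_charP [IsDomain A] (l : ℕ) [CharP A l]
    (h5 : 5 ≤ l) : e4 A ^ 3 - e6 A ^ 2 ≠ 0 := by
  apply e4_cube_sub_e6_sq_ne_zero
  have h2 : ((2 : ℕ) : A) ≠ 0 := by
    intro h
    have := (CharP.cast_eq_zero_iff A l 2).mp h
    have := Nat.le_of_dvd (by norm_num) this
    omega
  have h3 : ((3 : ℕ) : A) ≠ 0 := by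
    intro h
    have := (CharP.cast_eq_zero_iff A l 3).mp h
    have := Nat.le_of_dvd (by norm_num) this
    omega
  have : (1728 : A) = ((2 : ℕ) : A) ^ 6 * ((3 : ℕ) : A) ^ 3 := by push_cast; norm_num
  rw [this]
  exact mul_ne_zero (pow_ne_zero _ h2) (pow_ne_zero _ h3)

end ring

end Fermat.Agent.S16.RAM
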